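import Fermat.Agent.S27.Spec

/-!
# Row S27, leaf CONN (helper660)

A geometrically connected scheme over a field has connected fibres.
-/

set_option autoImplicit false
universe u

open CategoryTheory AlgebraicGeometry

namespace Fermat.Agent.S27.H660

/-- **CONN.** -/
theorem conn (k : Type u) [Field k] : Stmt.Conn k := by
  intro _ J f _ _ _ s
  exact f.isConnected_preimage_singleton s

end Fermat.Agent.S27.H660
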